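/-
S15, block A, part A-RED (architect helper137): definitions.

* `mass`      : total mass of a finitely supported function
* `Geo N A ρ` : what the node RHO uses of a "reduction of divisors" `ρ`
                ((R1) positivity, (R2) constant mass, (R3) `RedData.one`, (R4) separation)
* `SepAt M N hNM A x` : the node SEP at level `M` for the coordinate `x`: places of `FN M` near
                different cusps (with respect to `j`, `j_N`) have different reductions
-/
import Fermat.Agent.S15.A.Near
import Fermat.Agent.S37.II.RedData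
import Fermat.Agent.S37.II.ValRat

set_option autoImplicit false

noncomputable section

namespace Fermat.Agent.S15.A.Red

open ModularCurve AlgebraicCurve Fermat.Agent.S24 Fermat.Agent.S27 Fermat.Agent.S37

/-- the total mass -/
def mass {Y : Type*} : (Y →₀ ℤ) →+ ℤ := Finsupp.liftAddHom fun _ => AddMonoidHom.id ℤ

/-- What RHO uses of the reduction map. -/
structure Geo (N : ℕ) [NeZero N] (A : ValuationSubring Kbar) {Y : Type*}
    (ρ : Divisor Kbar (FN N) →+ (Y →₀ ℤ)) : Prop where
  pos : ∀ (P : Place Kbar (FN N)) (y : Y), 0 ≤ ρ (pt P) y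
  mass : ∃ d : ℤ, 0 < d ∧ ∀ P : Place Kbar (FN N), mass (ρ (pt P)) = d
  one : ∀ (e : FN N) (D : Divisor Kbar (FN N)), II.IsOne A N e → (∀ v, D v = v.ord e) → ρ D = 0
  sep : ∀ (P P' : Place Kbar (FN N)) (y : Y), NearInf N A P → NearZero N A P' →
    ρ (pt P) y ≠ 0 → ρ (pt P') y = 0

/-- **SEP** at level `M` for the coordinate `x`. -/
def SepAt (M N : ℕ) [NeZero M] [NeZero N] (hNM : N ∣ M) (A : ValuationSubring Kbar) (x : FN M) : Prop :=
  ∀ W W' : Place Kbar (FN M), VInf (compRing A W) (jF M) (JF M N hNM) →
    VZero (compRing A W') (jF M) (JF M N hNM) → II.red A x W ≠ II.red A x W'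

end Fermat.Agent.S15.A.Red

end
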