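/-
S15, block A, part A-RED (architect helper137): `Geo` for `ρ = redDiv A x` at level `N` itself
(used for `ℓ ≥ 5`, `x = j`).
-/
import Fermat.Agent.S15.A.Red.Defs
import Fermat.Agent.S37.II.Base

set_option autoImplicit false

noncomputable section

namespace Fermat.Agent.S15.A.Red

open ModularCurve AlgebraicCurve Fermat.Agent.S24 Fermat.Agent.S27 Fermat.Agent.S37
open Fermat.Agent.S18

variable {N : ℕ} [NeZero N] {A : ValuationSubring Kbar}

/-- `pos`: `single _ 1 ≥ 0`; `mass`: `d = 1`; `sep`: `redDiv_single`, `Finsupp.single_apply`. -/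
theorem geo_redDiv (x : FN N)
    (hone : ∀ (e : FN N) (D : Divisor Kbar (FN N)), II.IsOne A N e → (∀ v, D v = v.ord e) →
      II.redDiv A x D = 0)
    (hsep : SepAt N N dvd_rfl A x) : Geo N A (II.redDiv A x) := by
  classical
  have hpt : ∀ P : Place Kbar (FN N), II.redDiv A x (pt P) = Finsupp.single (II.red A x P) 1 :=
    fun P => II.redDiv_single A x P 1
  refine ⟨fun P y => ?_, ⟨1, one_pos, fun P => ?_⟩, hone, fun P P' y hP hP' hy => ?_⟩
  · rw [hpt, Finsupp.single_apply]
    split_ifs <;> simp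
  · rw [hpt, mass, Finsupp.liftAddHom_apply_single]
    rfl
  · rw [hpt, Finsupp.single_apply] at hy ⊢
    have h1 : II.red A x P = y := by
      by_contra h
      exact hy (if_neg h)
    refine if_neg fun h2 => ?_
    exact hsep P P' hP hP' (h1.trans h2.symm)

theorem geo_base {ℓ : ℕ} [Fact ℓ.Prime] (hℓ : ¬ ℓ ∣ N) (B : BaseData N ℓ)
    (hA : A.LiesOverPrime ℓ) (hsep : SepAt N N dvd_rfl A (B.xK Kbar)) :
    Geo N A (II.redDiv A (B.xK Kbar)) :=
  geo_redDiv _ (II.redData_of_base hℓ B A hA).one hsep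

end Fermat.Agent.S15.A.Red

end
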