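/-
S15, block A, part A-RED (architect helper137), node RHO: the function `ee g c = 1 - g / c`:
its orders, and `IsOne`.
-/
import Fermat.Agent.S15.A.Red.Defs

set_option autoImplicit false

noncomputable section

namespace Fermat.Agent.S15.A.Red

open ModularCurve AlgebraicCurve Fermat.Agent.S24 Fermat.Agent.S27 Fermat.Agent.S37

variable {N : ℕ} [NeZero N]

/-- `1 - g / c`. -/
def ee (g : FN N) (c : Kbar) : FN N := 1 - algebraMap Kbar (FN N) c⁻¹ * g

variable {g : FN N} {c : Kbar} {v : Place Kbar (FN N)}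

theorem ord_ee_of_neg (hc : c ≠ 0) (h : v.ord g < 0) : v.ord (ee g c) = v.ord g := by
  have hg : g ≠ 0 := by
    rintro rfl
    simp at h
  have hc' : algebraMap Kbar (FN N) c⁻¹ ≠ 0 := by
    rw [Ne, FaithfulSMul.algebraMap_eq_zero_iff]
    exact inv_ne_zero hc
  have h1 : v.ord (algebraMap Kbar (FN N) c⁻¹ * g) = v.ord g := by
    rw [v.ord_mul hc' hg, FF.ord_algebraMap, zero_add]
  have e : ee g c = -(algebraMap Kbar (FN N) c⁻¹ * g) + 1 := by
    unfold ee
    ring
  rw [e, FF.ord_add_eq_of_lt v (neg_ne_zero.2 (mul_ne_zero hc' hg))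
    (by rw [FF.ord_neg, h1, Place.ord_one]; exact h), FF.ord_neg, h1]

theorem ord_ee_nonneg (h : 0 ≤ v.ord g) : 0 ≤ v.ord (ee g c) := by
  exact ord_sub_nonneg (by simp) (ord_mul_nonneg (ord_algebraMap_nonneg _) h)

theorem ord_ee_pos_iff (hc : c ≠ 0) (he : ee g c ≠ 0) (h : 0 ≤ v.ord g) :
    0 < v.ord (ee g c) ↔ val v g = c := by
  have hval : val v (ee g c) = 1 - c⁻¹ * val v g := by
    unfold ee
    rw [val_sub (by simp) (ord_mul_nonneg (ord_algebraMap_nonneg _) h),
      val_mul (ord_algebraMap_nonneg _) h, val_one, val_algebraMap]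
  have h1 : 0 < v.ord (ee g c) ↔ val v (ee g c) = 0 := by
    rw [val_eq_zero_iff (ord_ee_nonneg h)]
    exact ⟨Or.inr, fun h' => h'.resolve_left he⟩
  rw [h1, hval, sub_eq_zero]
  constructor
  · intro h2
    have : c * 1 = c * (c⁻¹ * val v g) := by rw [← h2]
    rw [mul_one, mul_inv_cancel_left₀ hc] at this
    exact this.symm
  · intro h2
    rw [h2, inv_mul_cancel₀ hc]

/-- `ee g c ≠ 0` as soon as `g` has a pole. -/
theorem ee_ne_zero (hc : c ≠ 0) (h : v.ord g < 0) : ee g c ≠ 0 := by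
  intro h0
  have h1 := ord_ee_of_neg hc h
  rw [h0, Place.ord_zero] at h1
  omega

/-- the zeros and poles of `1 - g / c`, `c ∉ A`, are places where `g` is not `A`-integral. -/
theorem notMem_compRing_of_ord_ee_ne_zero {A : ValuationSubring Kbar} (hc : c ∉ A)
    (he : ee g c ≠ 0) (h : v.ord (ee g c) ≠ 0) : g ∉ compRing A v := by
  have hc0 : c ≠ 0 := by
    rintro rfl
    exact hc A.zero_mem
  rintro ⟨h0, h1⟩
  have h2 : 0 < v.ord (ee g c) := lt_of_le_of_ne (ord_ee_nonneg h0) (Ne.symm h)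
  rw [ord_ee_pos_iff hc0 he h0] at h2
  rw [h2] at h1
  exact hc h1

end Fermat.Agent.S15.A.Red

end
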