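/-
S15, block A, part A-RED (architect helper137), node RHO: the abstract core.

`p`, `p'` two types of places with disjoint `ρ`-supports; `g` a function with `A`-integral
`q`-expansion, whose poles are `κ` (simple, of type `p`) and places of type `p'`; every place at which
`g` is not `A`-integral is of type `p` or `p'`.  Then every place `P` of type `p` with
`g (P) ∉ A` has `ρ (P) = ρ (κ)`, and it is the only place of type `p` with this value of `g`.

Proof.  `c = g (P)`, `e = ee g c = 1 - g / c` is `IsOne`, `D = div e`, `ρ D = 0` (`Geo.one`).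
Every `v` in the support of `D` has `g ∉ compRing A v` (`notMem_compRing_of_ord_ee_ne_zero`), so is of
type `p` or `p'`.  Lemma A (`map_filter_eq_zero`): `ρ E = 0` for `E = D.filter p`.  Masses
(`sum_map_eq`, `mass`): `d * deg E = 0`, so `deg E = 0`.  No place is of both types (mass `> 0`,
`exists_apply_ne_zero`, `hsep`).  `E κ = D κ = ord_κ g = -1`; for `v ≠ κ` of type `p`: `v` is not a
pole of `g`, so `0 ≤ D v`; `E P = D P > 0`.  Lemma B: `E = pt P - pt κ`.
-/
import Fermat.Agent.S15.A.Red.Split2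
import Fermat.Agent.S15.A.Red.Div

set_option autoImplicit false

noncomputable section

namespace Fermat.Agent.S15.A.Red

open ModularCurve AlgebraicCurve Fermat.Agent.S24 Fermat.Agent.S27 Fermat.Agent.S37

variable {N : ℕ} [NeZero N] {A : ValuationSubring Kbar} {Y : Type*}
  {ρ : Divisor Kbar (FN N) →+ (Y →₀ ℤ)}

/-- the hypotheses of the core -/
structure CoreHyp (A : ValuationSubring Kbar) (ρ : Divisor Kbar (FN N) →+ (Y →₀ ℤ))
    (p p' : Place Kbar (FN N) → Prop) (g : FN N) (κ : Place Kbar (FN N)) : Prop where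
  mass : ∃ d : ℤ, 0 < d ∧ ∀ P : Place Kbar (FN N), mass (ρ (pt P)) = d
  one : ∀ (e : FN N) (D : Divisor Kbar (FN N)), II.IsOne A N e → (∀ v, D v = v.ord e) → ρ D = 0
  sep : ∀ (P P' : Place Kbar (FN N)) (y : Y), p P → p' P' → ρ (pt P) y ≠ 0 → ρ (pt P') y = 0
  isOne : ∀ c : Kbar, c ∉ A → II.IsOne A N (ee g c)
  ord : κ.ord g = -1
  type : p κ
  pole : ∀ v : Place Kbar (FN N), v.ord g < 0 → v = κ ∨ p' v
  dich : ∀ v : Place Kbar (FN N), g ∉ compRing A v → p v ∨ p' v

variable {p p' : Place Kbar (FN N) → Prop} {g : FN N} {κ : Place Kbar (FN N)}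

theorem mass_eq_sum (f : Y →₀ ℤ) : mass f = f.sum fun _ n => n := by
  rw [mass, Finsupp.liftAddHom_apply]
  rfl

theorem degree_eq_sum (D : Divisor Kbar (FN N)) : Divisor.degree D = D.sum fun _ n => n :=
  Fermat.Agent.S27.degree_eq_sum D

/-- no place is of both types -/
theorem CoreHyp.not_both (H : CoreHyp A ρ p p' g κ) (v : Place Kbar (FN N)) (h : p v)
    (h' : p' v) : False := by
  obtain ⟨d, hd, hm⟩ := H.mass
  obtain ⟨y, hy⟩ := exists_apply_ne_zero (ρ (pt v)) (by rw [← mass_eq_sum, hm v]; exact hd.ne')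
  exact hy (H.sep v v y h h' hy)

end Fermat.Agent.S15.A.Red

end
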