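/-
S15, block A, part A-RED (architect helper137), node RHO: the main step of the core
(see the header of `Core.lean` for the proof).
-/
import Fermat.Agent.S15.A.Red.Core

set_option autoImplicit false

noncomputable section

namespace Fermat.Agent.S15.A.Red

open ModularCurve AlgebraicCurve Fermat.Agent.S24 Fermat.Agent.S27 Fermat.Agent.S37

variable {N : ℕ} [NeZero N] {A : ValuationSubring Kbar} {Y : Type*}
  {ρ : Divisor Kbar (FN N) →+ (Y →₀ ℤ)}
  {p p' : Place Kbar (FN N) → Prop} {g : FN N} {κ : Place Kbar (FN N)}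

open Classical in
/-- the `p`-part of `div (1 - g / c)` is `(P) - (κ)`. -/
theorem CoreHyp.filter_eq (H : CoreHyp A ρ p p' g κ) {P : Place Kbar (FN N)} (hP : p P)
    (h0 : 0 ≤ P.ord g) (hPA : val P g ∉ A) (D : Divisor Kbar (FN N))
    (hD : ∀ v, D v = v.ord (ee g (val P g))) :
    ρ (D.filter p) = 0 ∧ D.filter p = pt P - pt κ := by
  have hc : val P g ≠ 0 := fun h => hPA (h ▸ A.zero_mem)
  have hκneg : κ.ord g < 0 := by rw [H.ord]; norm_num
  have he : ee g (val P g) ≠ 0 := ee_ne_zero hc hκneg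
  have hρD : ρ D = 0 := H.one _ D (H.isOne _ hPA) hD
  have hsupp : ∀ v, D v ≠ 0 → p v ∨ p' v := fun v hv =>
    H.dich v (notMem_compRing_of_ord_ee_ne_zero hPA he (by rwa [← hD v]))
  have h1 : ρ (D.filter p) = 0 := map_filter_eq_zero ρ p p' H.sep D hρD hsupp
  refine ⟨h1, ?_⟩
  obtain ⟨d, hd, hm⟩ := H.mass
  have hdeg : ((D.filter p).sum fun _ n => n) = 0 := by
    have h2 := sum_map_eq ρ d (fun v => by rw [← mass_eq_sum]; exact hm v) (D.filter p)
    rw [h1, Finsupp.sum_zero_index] at h2
    exact (mul_eq_zero.1 h2.symm).resolve_left hd.ne'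
  refine eq_single_sub_single (D.filter p) κ P ?_ ?_ ?_ hdeg
  · rw [Finsupp.filter_apply_pos p D H.type, hD, ord_ee_of_neg hc hκneg, H.ord]
  · intro v hv
    by_cases hpv : p v
    · rw [Finsupp.filter_apply_pos p D hpv, hD]
      refine ord_ee_nonneg ?_
      by_contra hneg
      rcases H.pole v (not_le.1 hneg) with h3 | h3
      · exact hv h3
      · exact H.not_both v hpv h3
    · rw [Finsupp.filter_apply_neg p D hpv]
  · rw [Finsupp.filter_apply_pos p D hP, hD]
    exact (ord_ee_pos_iff hc he h0).2 rfl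

end Fermat.Agent.S15.A.Red

end
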