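/-
S15, block A, part A-RED (architect helper137), node RHO: the two consequences of the core
(see the header of `Core.lean` for the proof).
-/
import Fermat.Agent.S15.A.Red.CoreFilter
import Fermat.Agent.S37.HeckeInputs.Main

set_option autoImplicit false

noncomputable section

namespace Fermat.Agent.S15.A.Red

open ModularCurve AlgebraicCurve Fermat.Agent.S24 Fermat.Agent.S27 Fermat.Agent.S37

variable {N : ℕ} [NeZero N] {A : ValuationSubring Kbar} {Y : Type*}
  {ρ : Divisor Kbar (FN N) →+ (Y →₀ ℤ)}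
  {p p' : Place Kbar (FN N) → Prop} {g : FN N} {κ : Place Kbar (FN N)}

theorem CoreHyp.map_eq (H : CoreHyp A ρ p p' g κ) {P : Place Kbar (FN N)} (hP : p P)
    (h0 : 0 ≤ P.ord g) (hPA : val P g ∉ A) : ρ (pt P) = ρ (pt κ) := by
  classical
  have hc : val P g ≠ 0 := fun h => hPA (h ▸ A.zero_mem)
  have he : ee g (val P g) ≠ 0 := ee_ne_zero (v := κ) hc (by rw [H.ord]; norm_num)
  obtain ⟨D, hD, -⟩ := HasPrincipalDivisors.exists_divisor (K := Kbar) (ee g (val P g)) he
  obtain ⟨h1, h2⟩ := H.filter_eq hP h0 hPA D hD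
  rw [h2, map_sub, sub_eq_zero] at h1
  exact h1

theorem CoreHyp.unique (H : CoreHyp A ρ p p' g κ) {P P' : Place Kbar (FN N)} (hP : p P)
    (hP' : p P') (h0 : 0 ≤ P.ord g) (h0' : 0 ≤ P'.ord g) (hPA : val P g ∉ A)
    (h : val P' g = val P g) : P' = P := by
  classical
  have hc : val P g ≠ 0 := fun h => hPA (h ▸ A.zero_mem)
  have he : ee g (val P g) ≠ 0 := ee_ne_zero (v := κ) hc (by rw [H.ord]; norm_num)
  obtain ⟨D, hD, -⟩ := HasPrincipalDivisors.exists_divisor (K := Kbar) (ee g (val P g)) he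
  obtain ⟨-, h2⟩ := H.filter_eq hP h0 hPA D hD
  have h3 : 0 < (D.filter p) P' := by
    rw [Finsupp.filter_apply_pos p D hP', hD]
    exact (ord_ee_pos_iff hc he h0').2 h
  rw [h2, Finsupp.sub_apply, pt, pt, Finsupp.single_apply, Finsupp.single_apply] at h3
  by_contra hne
  rw [if_neg (fun e => hne e.symm)] at h3
  split_ifs at h3 <;> omega

end Fermat.Agent.S15.A.Red

end
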