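/-
S15, block A, part A-RED (architect helper137), node RHO: `1 - g / c` is `IsOne` if `g` has an
`A`-integral `q`-expansion and `c ∉ A`.
-/
import Fermat.Agent.S15.A.Red.Div
import Fermat.Agent.S37.II.IsOne

set_option autoImplicit false

noncomputable section

namespace Fermat.Agent.S15.A.Red

open ModularCurve AlgebraicCurve Fermat.Agent.S24 Fermat.Agent.S27 Fermat.Agent.S37

variable {N : ℕ} [NeZero N] {A : ValuationSubring Kbar}

private theorem isOne_coe_ee (g : FN N) (c : Kbar) :
    ((ee g c : FN N) : LaurentSeries Kbar) =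
      1 - HahnSeries.single (0 : ℤ) c⁻¹ * (g : LaurentSeries Kbar) := by
  have h : ((algebraMap Kbar (FN N) c⁻¹ : FN N) : LaurentSeries Kbar) =
      HahnSeries.single (0 : ℤ) c⁻¹ := by
    rw [← algebraMap_laurentSeries_eq_single]
    rfl
  rw [← h]
  rfl

/-- `P = 1 - c⁻¹ G`, `Q = 1`, `d = 1`. -/
theorem isOne_ee (g : FN N) (G : LaurentSeries A)
    (hG : coeffMap A.subtype G = (g : LaurentSeries Kbar)) {c : Kbar} (hc : c ∉ A) :
    II.IsOne A N (ee g c) := by
  have hcinv : c⁻¹ ∈ A := (A.mem_or_inv_mem c).resolve_left hc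
  set a : A := ⟨c⁻¹, hcinv⟩ with ha
  have hanu : ¬ IsUnit a := by
    intro hu
    obtain ⟨b, hb⟩ := hu.exists_right_inv
    apply hc
    have h1 : c⁻¹ * (b : Kbar) = 1 := congrArg Subtype.val hb
    have hc0 : c ≠ 0 := by
      rintro rfl
      exact hc A.zero_mem
    have h2 : (b : Kbar) = c := by
      field_simp at h1
      exact h1
    rw [← h2]
    exact b.2
  have hres : IsLocalRing.residue A a = 0 := by
    rw [IsLocalRing.residue_eq_zero_iff]
    exact (IsLocalRing.mem_maximalIdeal a).2 hanu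
  set P : LaurentSeries A := 1 - HahnSeries.single (0 : ℤ) a * G with hPdef
  have hPeq : coeffMap A.subtype P = ((ee g c : FN N) : LaurentSeries Kbar) := by
    rw [isOne_coe_ee, hPdef, map_sub, map_one, map_mul, coeffMap_single, hG]
    rfl
  have hP : coeffMap A.subtype P ∈ modularFunctionFieldBar N := by
    rw [hPeq]
    exact (ee g c).2
  have hQ : coeffMap A.subtype (1 : LaurentSeries A) ∈ modularFunctionFieldBar N := by
    rw [map_one]
    exact (modularFunctionFieldBar N).one_mem
  have hrP : rho A P = 1 := by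
    show coeffMap (IsLocalRing.residue A) P = 1
    rw [hPdef, map_sub, map_one, map_mul, coeffMap_single, hres, HahnSeries.single_eq_zero,
      zero_mul, sub_zero]
  have hrQ : rho A (1 : LaurentSeries A) = 1 := map_one (coeffMap (IsLocalRing.residue A))
  refine ⟨1, P, 1, hP, hQ, one_ne_zero, by rw [hrP, hrQ], by rw [hrQ]; exact one_ne_zero, ?_⟩
  have hQ1 : (⟨coeffMap A.subtype (1 : LaurentSeries A), hQ⟩ : modularFunctionFieldBar N) = 1 :=
    Subtype.ext (map_one _)
  have hP1 : (⟨coeffMap A.subtype P, hP⟩ : modularFunctionFieldBar N) = ee g c :=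
    Subtype.ext hPeq
  rw [hQ1, hP1, map_one, one_mul, div_one]

private theorem isOne_coeffMap_qExpand {R S : Type*} [CommRing R] [CommRing S] (f : R →+* S)
    (n : ℕ) [NeZero n] (x : LaurentSeries R) :
    coeffMap f (qExpand R n x) = qExpand S n (coeffMap f x) := by
  ext k
  by_cases hk : (n : ℤ) ∣ k
  · obtain ⟨m, rfl⟩ := hk
    rw [coeffMap_coeff, qExpand_coeff_mul, qExpand_coeff_mul, coeffMap_coeff]
  · rw [coeffMap_coeff, qExpand_coeff_of_not_dvd n _ hk, qExpand_coeff_of_not_dvd n _ hk,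
      map_zero]

/-- the `q`-expansion of `j (q ^ d)` has coefficients in `ℤ ⊆ A`. -/
theorem exists_series_JF (A : ValuationSubring Kbar) (M d : ℕ) [NeZero d] (hd : d ∣ M) :
    ∃ G : LaurentSeries A, coeffMap A.subtype G = (JF M d hd : LaurentSeries Kbar) := by
  refine ⟨qExpand A d (jqModC A), ?_⟩
  show _ = Jser d
  unfold Jser coeffEmb
  rw [isOne_coeffMap_qExpand, isOne_coeffMap_qExpand, ← jqModC_rat, coeffMap_jqModC,
    coeffMap_jqModC]

theorem isOne_ee_JF (d : ℕ) [NeZero d] (hd : d ∣ N) {c : Kbar} (hc : c ∉ A) :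
    II.IsOne A N (ee (JF N d hd) c) := by
  obtain ⟨G, hG⟩ := exists_series_JF A N d hd
  exact isOne_ee _ G hG hc

end Fermat.Agent.S15.A.Red

end
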