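/-
S15, block A, part A-RED (architect helper137), node NP for `FN N`: the dichotomy
`NearInf ∨ NearZero` (from helper17's `A/Hecke/NP2`, `A/Hecke/ModEqJ`).
-/
import Fermat.Agent.S15.A.Red.Defs
import Fermat.Agent.S15.A.Hecke.NP2
import Fermat.Agent.S15.A.Hecke.ModEqJ

set_option autoImplicit false

noncomputable section

namespace Fermat.Agent.S15.A.Red

open ModularCurve AlgebraicCurve Fermat.Agent.S24 Fermat.Agent.S27 Fermat.Agent.S37

variable {N : ℕ} [NeZero N]

theorem modEq_jF_jN (hN : N.Prime) : A.ModEq N (phiC N hN) (jF N) (jN N) :=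
  modEq_JF N hN N 1 N (by rw [mul_one]) (one_dvd N) dvd_rfl

variable {A : ValuationSubring Kbar} {P : Place Kbar (FN N)}

theorem nearInf_or_nearZero (hN : N.Prime) (h : jF N ∉ compRing A P) :
    NearInf N A P ∨ NearZero N A P :=
  (modEq_jF_jN hN).vInf_or_vZero hN.two_le (phiC_self N hN) (one_lt_valuation_iff.2 h)

theorem nearInf_or_nearZero' (hN : N.Prime) (h : jN N ∉ compRing A P) :
    NearInf N A P ∨ NearZero N A P :=
  nearInf_or_nearZero hN
    (one_lt_valuation_iff.1 ((modEq_jF_jN hN).symm.one_lt (one_lt_valuation_iff.2 h)))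

theorem jN_notMem_of_nearZero (hN : N.Prime) (h : NearZero N A P) : jN N ∉ compRing A P :=
  one_lt_valuation_iff.1 ((modEq_jF_jN hN).one_lt h.1)

theorem jF_notMem_of_nearInf (h : NearInf N A P) : jF N ∉ compRing A P :=
  one_lt_valuation_iff.1 h.1

/-- a pole of `j_N` is a pole of `j` (the Newton polygon for the valuation ring of the place). -/
theorem ord_jF_neg_of_ord_jN_neg (hN : N.Prime) (h : P.ord (jN N) < 0) : P.ord (jF N) < 0 := by
  have h1 : jN N ∉ P.toValuationSubring := fun h' =>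
    absurd ((FF.mem_iff_ord_nonneg P).1 h') (not_le.2 h)
  have h2 : jF N ∉ P.toValuationSubring :=
    one_lt_valuation_iff.1 ((modEq_jF_jN hN).symm.one_lt (one_lt_valuation_iff.2 h1))
  by_contra h3
  exact h2 ((FF.mem_iff_ord_nonneg P).2 (not_lt.1 h3))

end Fermat.Agent.S15.A.Red

end
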