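/-
S15, block A, part A-RED (architect helper137), node RHO: the two instances of `CoreHyp`.
-/
import Fermat.Agent.S15.A.Red.Core
import Fermat.Agent.S15.A.Red.IsOne
import Fermat.Agent.S15.A.Red.NearDich

set_option autoImplicit false

noncomputable section

namespace Fermat.Agent.S15.A.Red

open ModularCurve AlgebraicCurve Fermat.Agent.S24 Fermat.Agent.S27 Fermat.Agent.S37

variable {N : ℕ} [NeZero N] {A : ValuationSubring Kbar} {Y : Type*}
  {ρ : Divisor Kbar (FN N) →+ (Y →₀ ℤ)} {z : Place Kbar (FN N)}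

/-- `p = NearInf`, `p' = NearZero`, `g = j`, `κ = ∞`. -/
theorem coreHyp_inf (hN : N.Prime) (hz : IsCusp0 N z) (G : Geo N A ρ) :
    CoreHyp A ρ (NearInf N A) (NearZero N A) (jF N) (cInf N) where
  mass := G.mass
  one := G.one
  sep := G.sep
  isOne := fun c hc => isOne_ee_JF 1 (one_dvd N) hc
  ord := ord_cInf_jF
  type := nearInf_cInf hN.two_le A
  pole := fun v hv => by
    rcases hz.only v hv with rfl | rfl
    · exact Or.inl rfl
    · exact Or.inr (hz.nearZero hN.two_le A)
  dich := fun _ hv => nearInf_or_nearZero hN hv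

/-- `p = NearZero`, `p' = NearInf`, `g = j_N`, `κ = 0`. -/
theorem coreHyp_zero (hN : N.Prime) (hz : IsCusp0 N z) (G : Geo N A ρ) :
    CoreHyp A ρ (NearZero N A) (NearInf N A) (jN N) z where
  mass := G.mass
  one := G.one
  sep := fun P P' y hP hP' hy => by
    by_contra hy'
    exact hy (G.sep P' P y hP' hP hy')
  isOne := fun c hc => isOne_ee_JF N dvd_rfl hc
  ord := hz.ord_jN
  type := hz.nearZero hN.two_le A
  pole := fun v hv => by
    rcases hz.only v (ord_jF_neg_of_ord_jN_neg hN hv) with rfl | rfl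
    · exact Or.inr (nearInf_cInf hN.two_le A)
    · exact Or.inl rfl
  dich := fun _ hv => (nearInf_or_nearZero' hN hv).symm

/-- a `NearInf` place is `∞` or a place where `j` is regular with value outside `A`. -/
theorem nearInf_cases (hN : N.Prime) (hz : IsCusp0 N z) {P : Place Kbar (FN N)}
    (hP : NearInf N A P) : P = cInf N ∨ (0 ≤ P.ord (jF N) ∧ val P (jF N) ∉ A) := by
  by_cases h : P.ord (jF N) < 0
  · rcases hz.only P h with rfl | rfl
    · exact Or.inl rfl
    · exact absurd hP (not_vInf_of_vZero (hz.nearZero hN.two_le A))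
  · exact Or.inr ⟨not_lt.1 h, fun h' => jF_notMem_of_nearInf hP ⟨not_lt.1 h, h'⟩⟩

theorem nearZero_cases (hN : N.Prime) (hz : IsCusp0 N z) {P : Place Kbar (FN N)}
    (hP : NearZero N A P) : P = z ∨ (0 ≤ P.ord (jN N) ∧ val P (jN N) ∉ A) := by
  by_cases h : P.ord (jN N) < 0
  · rcases hz.only P (ord_jF_neg_of_ord_jN_neg hN h) with rfl | rfl
    · exact absurd (nearInf_cInf hN.two_le A) (not_vInf_of_vZero hP)
    · exact Or.inl rfl
  · exact Or.inr ⟨not_lt.1 h, fun h' => jN_notMem_of_nearZero hN hP ⟨not_lt.1 h, h'⟩⟩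

end Fermat.Agent.S15.A.Red

end
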