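/-
S15, block A, part A-RED (architect helper137), node RHO: `Same N A P P' → ρ (pt P) = ρ (pt P')`
and FIX (uniqueness), for a `ρ` with `Geo N A ρ`.
-/
import Fermat.Agent.S15.A.Red.CoreUse
import Fermat.Agent.S15.A.Red.RhoHyp

set_option autoImplicit false

noncomputable section

namespace Fermat.Agent.S15.A.Red

open ModularCurve AlgebraicCurve Fermat.Agent.S24 Fermat.Agent.S27 Fermat.Agent.S37

variable {N : ℕ} [NeZero N] {A : ValuationSubring Kbar} {Y : Type*}
  {ρ : Divisor Kbar (FN N) →+ (Y →₀ ℤ)} {z : Place Kbar (FN N)}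

theorem rho_inf (hN : N.Prime) (hz : IsCusp0 N z) (G : Geo N A ρ) {P : Place Kbar (FN N)}
    (hP : NearInf N A P) : ρ (pt P) = ρ (pt (cInf N)) := by
  rcases nearInf_cases hN hz hP with rfl | ⟨h0, hA⟩
  · rfl
  · exact (coreHyp_inf hN hz G).map_eq hP h0 hA

theorem rho_zero (hN : N.Prime) (hz : IsCusp0 N z) (G : Geo N A ρ) {P : Place Kbar (FN N)}
    (hP : NearZero N A P) : ρ (pt P) = ρ (pt z) := by
  rcases nearZero_cases hN hz hP with rfl | ⟨h0, hA⟩
  · rfl
  · exact (coreHyp_zero hN hz G).map_eq hP h0 hA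

/-- **RHO**. -/
theorem rho_same (hN : N.Prime) (hz : IsCusp0 N z) (G : Geo N A ρ) {P P' : Place Kbar (FN N)}
    (h : Same N A P P') : ρ (pt P) = ρ (pt P') := by
  rcases h with ⟨h1, h2⟩ | ⟨h1, h2⟩
  · rw [rho_inf hN hz G h1, rho_inf hN hz G h2]
  · rw [rho_zero hN hz G h1, rho_zero hN hz G h2]

/-- `ρ` kills `ND`, and `ND` consists of divisors of degree `0`. -/
theorem rho_ND (hN : N.Prime) (hz : IsCusp0 N z) (G : Geo N A ρ) (D : Divisor Kbar (FN N))
    (hD : D ∈ ND N A) : ρ D = 0 ∧ Divisor.degree D = 0 := by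
  induction hD using AddSubgroup.closure_induction with
  | mem D hD =>
    obtain ⟨P, P', h, rfl⟩ := hD
    exact ⟨by rw [map_sub, rho_same hN hz G h, sub_self], degree_pt_sub_pt P P'⟩
  | zero => exact ⟨map_zero _, map_zero _⟩
  | add D E _ _ hD hE => exact ⟨by rw [map_add, hD.1, hE.1, add_zero],
      by rw [map_add, hD.2, hE.2, add_zero]⟩
  | neg D _ hD => exact ⟨by rw [map_neg, hD.1, neg_zero], by rw [map_neg, hD.2, neg_zero]⟩

omit [NeZero N] in
theorem degree_of_mem_ND [NeZero N] (D : Divisor Kbar (FN N)) (hD : D ∈ ND N A) :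
    Divisor.degree D = 0 := by
  induction hD using AddSubgroup.closure_induction with
  | mem D hD =>
    obtain ⟨P, P', -, rfl⟩ := hD
    exact degree_pt_sub_pt P P'
  | zero => exact map_zero _
  | add D E _ _ hD hE => rw [map_add, hD, hE, add_zero]
  | neg D _ hD => rw [map_neg, hD, neg_zero]

/-- every element of `NN` is the class of an element of `ND`. -/
theorem exists_mem_ND (x : JZero N) (hx : x ∈ NN N A) : ∃ D ∈ ND N A, x = cls D := by
  induction hx using AddSubgroup.closure_induction with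
  | mem x hx =>
    obtain ⟨P, P', h, rfl⟩ := hx
    exact ⟨_, AddSubgroup.subset_closure ⟨P, P', h, rfl⟩, rfl⟩
  | zero => exact ⟨0, (ND N A).zero_mem, cls_zero.symm⟩
  | add x y _ _ hx hy =>
    obtain ⟨D, hD, rfl⟩ := hx
    obtain ⟨E, hE, rfl⟩ := hy
    exact ⟨D + E, (ND N A).add_mem hD hE,
      (cls_add (degree_of_mem_ND D hD) (degree_of_mem_ND E hE)).symm⟩
  | neg x _ hx =>
    obtain ⟨D, hD, rfl⟩ := hx
    exact ⟨-D, (ND N A).neg_mem hD, (cls_neg (degree_of_mem_ND D hD)).symm⟩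

/-- **FIX**, `NearInf` version. -/
theorem fix_inf_of_geo (hN : N.Prime) (hz : IsCusp0 N z) (G : Geo N A ρ)
    {P P' : Place Kbar (FN N)} (hP : NearInf N A P) (hP' : NearInf N A P')
    (h0 : 0 ≤ P.ord (jF N)) (h0' : 0 ≤ P'.ord (jF N)) (h : val P' (jF N) = val P (jF N)) :
    P' = P :=
  (coreHyp_inf hN hz G).unique hP hP' h0 h0'
    (fun h' => jF_notMem_of_nearInf hP ⟨h0, h'⟩) h

/-- **FIX**, `NearZero` version. -/
theorem fix_zero_of_geo (hN : N.Prime) (hz : IsCusp0 N z) (G : Geo N A ρ)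
    {P P' : Place Kbar (FN N)} (hP : NearZero N A P) (hP' : NearZero N A P')
    (h0 : 0 ≤ P.ord (jN N)) (h0' : 0 ≤ P'.ord (jN N)) (h : val P' (jN N) = val P (jN N)) :
    P' = P :=
  (coreHyp_zero hN hz G).unique hP hP' h0 h0'
    (fun h' => jN_notMem_of_nearZero hN hP ⟨h0, h'⟩) h

end Fermat.Agent.S15.A.Red

end
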