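/-
S15, block A, part A-RED (architect helper137).  DICH: the dichotomy of valuations for a pair
`(a, b)` satisfying a modular equation
`a ^ (q + 1) + b ^ (q + 1) + ∑_{i, k ≤ q} c i k * a ^ i * b ^ k = 0`, `c q q = -1`, `c i k ∈ ℤ`:
if `1 < V a` then `V b = V a ^ q` or (`1 < V b` and `V b ^ q = V a`).
Mathlib only.
-/
import Mathlib

set_option autoImplicit false

namespace Fermat.Agent.S15.A.Red

variable {F : Type*} [Field F]

/-- the shape of the modular equation of prime level `q` -/
def ModEq (q : ℕ) (c : ℕ → ℕ → ℤ) (a b : F) : Prop :=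
  a ^ (q + 1) + b ^ (q + 1) + ∑ i ∈ Finset.range (q + 1), ∑ k ∈ Finset.range (q + 1),
    ((c i k : ℤ) : F) * a ^ i * b ^ k = 0

theorem ModEq.symm {q : ℕ} {c : ℕ → ℕ → ℤ} (hc : ∀ i k, c i k = c k i) {a b : F}
    (h : ModEq q c a b) : ModEq q c b a := by
  unfold ModEq at h ⊢
  rw [Finset.sum_comm]
  rw [← h, add_comm (b ^ (q + 1))]
  congr 1
  refine Finset.sum_congr rfl fun i _ => Finset.sum_congr rfl fun k _ => ?_
  rw [hc k i]
  ring

variable (O : ValuationSubring F)

theorem valuation_intCast_le_one (n : ℤ) : O.valuation (n : F) ≤ 1 :=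
  (O.valuation_le_one_iff _).2 (intCast_mem O n)

/-- one term of the double sum. -/
private theorem dich_term_le {c : ℕ → ℕ → ℤ} (a b : F) (i k : ℕ) :
    O.valuation (((c i k : ℤ) : F) * a ^ i * b ^ k) ≤ O.valuation a ^ i * O.valuation b ^ k := by
  rw [map_mul, map_mul, map_pow, map_pow, mul_assoc]
  exact mul_le_of_le_one_left' (valuation_intCast_le_one O _)

/-- if `V b ≤ 1 < V a` the term `a ^ (q + 1)` dominates. -/
theorem one_lt_of_modEq {q : ℕ} {c : ℕ → ℕ → ℤ} {a b : F} (h : ModEq q c a b)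
    (ha : 1 < O.valuation a) : 1 < O.valuation b := by
  by_contra hb
  rw [not_lt] at hb
  unfold ModEq at h
  have hG0 : O.valuation a ^ (q + 1) ≠ 0 := pow_ne_zero _ (ne_of_gt (lt_trans zero_lt_one ha))
  have h1 : O.valuation (b ^ (q + 1)) < O.valuation a ^ (q + 1) := by
    rw [map_pow]
    exact lt_of_le_of_lt (pow_le_one' hb _) (one_lt_pow₀ ha (Nat.succ_ne_zero q))
  have h2 : O.valuation (∑ i ∈ Finset.range (q + 1), ∑ k ∈ Finset.range (q + 1),
      ((c i k : ℤ) : F) * a ^ i * b ^ k) < O.valuation a ^ (q + 1) := by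
    refine Valuation.map_sum_lt _ hG0 fun i hi => Valuation.map_sum_lt _ hG0 fun k _ => ?_
    refine lt_of_le_of_lt (dich_term_le O a b i k) ?_
    refine lt_of_le_of_lt (mul_le_of_le_one_right' (pow_le_one' hb _)) ?_
    exact pow_lt_pow_right₀ ha (Finset.mem_range.1 hi)
  have h3 : a ^ (q + 1) = -(b ^ (q + 1) + ∑ i ∈ Finset.range (q + 1),
      ∑ k ∈ Finset.range (q + 1), ((c i k : ℤ) : F) * a ^ i * b ^ k) := by
    linear_combination h
  have h4 : O.valuation (a ^ (q + 1)) < O.valuation a ^ (q + 1) := by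
    rw [h3, Valuation.map_neg]
    exact Valuation.map_add_lt _ h1 h2
  rw [map_pow] at h4
  exact lt_irrefl _ h4

/-- the double sum without its top term is smaller than `V a ^ q * V b ^ q`. -/
theorem valuation_add_eq_of_modEq {q : ℕ} {c : ℕ → ℕ → ℤ} (hq : c q q = -1) {a b : F}
    (h : ModEq q c a b) (ha : 1 < O.valuation a) (hb : 1 < O.valuation b) :
    O.valuation (a ^ (q + 1) + b ^ (q + 1)) = O.valuation a ^ q * O.valuation b ^ q := by
  unfold ModEq at h
  have ha0 : 0 < O.valuation a := lt_trans zero_lt_one ha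
  have hb0 : 0 < O.valuation b := lt_trans zero_lt_one hb
  have hG0 : O.valuation a ^ q * O.valuation b ^ q ≠ 0 :=
    mul_ne_zero (pow_ne_zero _ ha0.ne') (pow_ne_zero _ hb0.ne')
  rw [Finset.sum_range_succ, Finset.sum_range_succ (fun k => ((c q k : ℤ) : F) * a ^ q * b ^ k),
    hq] at h
  have h1 : O.valuation (∑ i ∈ Finset.range q, ∑ k ∈ Finset.range (q + 1),
      ((c i k : ℤ) : F) * a ^ i * b ^ k) < O.valuation a ^ q * O.valuation b ^ q := by
    refine Valuation.map_sum_lt _ hG0 fun i hi => Valuation.map_sum_lt _ hG0 fun k hk => ?_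
    refine lt_of_le_of_lt (dich_term_le O a b i k) ?_
    have e1 : O.valuation a ^ i < O.valuation a ^ q := pow_lt_pow_right₀ ha (Finset.mem_range.1 hi)
    have e2 : O.valuation b ^ k ≤ O.valuation b ^ q :=
      pow_le_pow_right₀ hb.le (Nat.lt_succ_iff.1 (Finset.mem_range.1 hk))
    exact mul_lt_mul e1 e2 (pow_pos hb0 _) zero_le
  have h2 : O.valuation (∑ k ∈ Finset.range q, ((c q k : ℤ) : F) * a ^ q * b ^ k) <
      O.valuation a ^ q * O.valuation b ^ q := by
    refine Valuation.map_sum_lt _ hG0 fun k hk => ?_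
    refine lt_of_le_of_lt (dich_term_le O a b q k) ?_
    have e2 : O.valuation b ^ k < O.valuation b ^ q := pow_lt_pow_right₀ hb (Finset.mem_range.1 hk)
    exact mul_lt_mul' le_rfl e2 zero_le (pow_pos ha0 _)
  have h3 : a ^ (q + 1) + b ^ (q + 1) = a ^ q * b ^ q +
      -((∑ i ∈ Finset.range q, ∑ k ∈ Finset.range (q + 1), ((c i k : ℤ) : F) * a ^ i * b ^ k) +
        ∑ k ∈ Finset.range q, ((c q k : ℤ) : F) * a ^ q * b ^ k) := by
    push_cast at h
    linear_combination h
  have h4 : O.valuation (a ^ q * b ^ q) = O.valuation a ^ q * O.valuation b ^ q := by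
    rw [map_mul, map_pow, map_pow]
  rw [h3, ← h4]
  refine Valuation.map_add_eq_of_lt_left _ ?_
  rw [Valuation.map_neg, h4]
  exact Valuation.map_add_lt _ h1 h2

/-- **DICH**. -/
theorem dich {q : ℕ} (hq2 : 2 ≤ q) {c : ℕ → ℕ → ℤ} (hq : c q q = -1) {a b : F}
    (h : ModEq q c a b) (ha : 1 < O.valuation a) :
    1 < O.valuation b ∧
      (O.valuation b = O.valuation a ^ q ∨ O.valuation b ^ q = O.valuation a) := by
  have hb : 1 < O.valuation b := one_lt_of_modEq O h ha
  refine ⟨hb, ?_⟩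
  have ha0 : 0 < O.valuation a := lt_trans zero_lt_one ha
  have hb0 : 0 < O.valuation b := lt_trans zero_lt_one hb
  have key := valuation_add_eq_of_modEq O hq h ha hb
  rcases lt_trichotomy (O.valuation a) (O.valuation b) with hlt | heq | hlt
  · left
    have e1 : O.valuation (a ^ (q + 1)) < O.valuation (b ^ (q + 1)) := by
      rw [map_pow, map_pow]
      exact pow_lt_pow_left₀ hlt zero_le (Nat.succ_ne_zero q)
    rw [Valuation.map_add_eq_of_lt_right _ e1, map_pow, pow_succ, mul_comm] at key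
    exact mul_right_cancel₀ (pow_ne_zero _ hb0.ne') key
  · exfalso
    have e1 : O.valuation (a ^ (q + 1) + b ^ (q + 1)) ≤ O.valuation a ^ (q + 1) := by
      refine Valuation.map_add_le _ ?_ ?_
      · rw [map_pow]
      · rw [map_pow, heq]
    rw [key, ← heq, ← pow_add] at e1
    exact absurd e1 (not_le.2 (pow_lt_pow_right₀ ha (by omega)))
  · right
    have e1 : O.valuation (b ^ (q + 1)) < O.valuation (a ^ (q + 1)) := by
      rw [map_pow, map_pow]
      exact pow_lt_pow_left₀ hlt zero_le (Nat.succ_ne_zero q)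
    rw [Valuation.map_add_eq_of_lt_left _ e1, map_pow, pow_succ] at key
    exact (mul_left_cancel₀ (pow_ne_zero _ ha0.ne') key).symm

end Fermat.Agent.S15.A.Red
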