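/-
S15, block A, part A-RED, node SEP (owner helper226): the three coordinates separate the cusps.

Sketch (blueprint #1512 (SEP), msg #6874).  `V = (compRing A W).valuation`, `j = jF M`,
`j' = JF M N hNM`, `ModEq N (cPhi N) j j'` (`Lib.ModEq.modEq_JK Kbar N hN M 1 _ _`).
If `1 < V j` there are `u`, `Q` in `ℤ[y]`, `y = x` (if `x ∈ compRing A W`, i.e. `II.InFin A x W`) or
`y = x⁻¹` (otherwise), with `j * u = Q` and `V Q = 1`:
* `x = j` : `y = x⁻¹`, `u = y`, `Q = 1`;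
* `x = h₂`: `j x = (1 + 256 x) ^ 3`; `x` is not a unit of `compRing A W` (else `j` is integral);
  `y = x`: `u = x`, `Q = (1 + 256 x) ^ 3`; `y = x⁻¹`: `u = y ^ 2`, `Q = (y + 256) ^ 3` (`256` unit);
* `x = h₃`: `j x = (1 + 27 x) (1 + 243 x) ^ 3`; `y = x⁻¹`: `u = y ^ 3`, `Q = (y + 27) (y + 243) ^ 3`.
`b := j' * u ^ N` satisfies the monic equation (multiply `ModEq` by `u ^ (N (N + 1))`)
`b^(N+1) + ∑_k (∑_i c i k Q^i u^(N (N+1-k) - i)) b^k + Q^(N+1) u^(N^2-1) = 0`, so `b`, `Q` lie in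
`S18.chart A.toSubring y`.  If `II.red A x W = II.red A x W'` then `InFin` agrees and
`resV (val W f) = resV (val W' f)` for `f` in the chart, so `V f = 1 ↔ V' f = 1` for `f = b, Q`.
`VInf` at `W` gives `V j' = V j ^ N` (`dich`), so `V b = 1`; hence `V' b = 1 = V' Q`,
`V' j' = V' j ^ N > V' j`: contradiction with `VZero` at `W'`.
-/
import Fermat.Agent.S15.A.Red.Sep.Level
import Fermat.Agent.S15.A.Red.Sep.Coord

set_option autoImplicit false

noncomputable section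

namespace Fermat.Agent.S15.A.Red

open ModularCurve AlgebraicCurve Fermat.Agent.S24 Fermat.Agent.S27 Fermat.Agent.S37
open Fermat.Agent.Lib.Hauptmodul

variable {M N : ℕ} [NeZero M] [NeZero N]

theorem sepAt_j (hN : N.Prime) (hNM : N ∣ M) (A : ValuationSubring Kbar) :
    SepAt M N hNM A (jF M) :=
  Sep.sepAt_of_coord hN hNM (Sep.coord_self _) (Sep.coord_inv jF_ne_zero)

theorem sepAt_h2 (hN : N.Prime) (hNM : N ∣ M) (h2 : 2 ∣ M) (A : ValuationSubring Kbar)
    (hA : A.LiesOverPrime 3) : SepAt M N hNM A (h2F M h2) :=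
  Sep.sepAt_of_coord hN hNM (Sep.coord_two (jF_mul_h2F M h2))
    (Sep.coord_two_inv hA (jF_mul_h2F M h2))

theorem sepAt_h3 (hN : N.Prime) (hNM : N ∣ M) (h3 : 3 ∣ M) (A : ValuationSubring Kbar)
    (hA : A.LiesOverPrime 2) : SepAt M N hNM A (h3F M h3) :=
  Sep.sepAt_of_coord hN hNM (Sep.coord_three (jF_mul_h3F M h3))
    (Sep.coord_three_inv hA (jF_mul_h3F M h3))

end Fermat.Agent.S15.A.Red

end
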