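/-
S15, block A, part A-RED (architect helper137): the exports.

* `exists_geo`   : for `N ≠ 2, 3` prime, `ℓ ∤ N`, `A | ℓ`: a `ρ` with `RedData`, `Geo` (and, for `ℓ ≥ 5`,
                   `ρ (div f) = 0 → IsOne f`)
* `torsFree`     : the contract `TorsFree N`
* `exists_isOne` : the input of `RCase`
-/
import Fermat.Agent.S15.A.Red.Rho
import Fermat.Agent.S15.A.Red.Sep
import Fermat.Agent.S15.A.Red.GeoBase
import Fermat.Agent.S15.A.Red.GeoPull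
import Fermat.Agent.S34.Nodal.Inst.Base
import Fermat.Agent.S37.II.Core.Injective

set_option autoImplicit false

noncomputable section

namespace Fermat.Agent.S15.A.Red

open ModularCurve AlgebraicCurve Fermat.Agent.S24 Fermat.Agent.S27 Fermat.Agent.S37
open Fermat.Agent.S18 Fermat.Agent.S37.HeckeInputs Fermat.Agent.S34.Nodal.Inst.Base

variable {N : ℕ} [NeZero N]

/-- the package -/
structure Pack (N : ℕ) [NeZero N] (ℓ : ℕ) (A : ValuationSubring Kbar) {Y : Type}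
    (ρ : Divisor Kbar (FN N) →+ (Y →₀ ℤ)) : Prop where
  red : II.RedData A N ℓ ρ
  geo : Geo N A ρ
  isOne : 5 ≤ ℓ → ∀ f : FN N, f ≠ 0 → ∀ D : Divisor Kbar (FN N), (∀ v, D v = v.ord f) →
    ρ D = 0 → II.IsOne A N f

theorem exists_pack_five (hN : N.Prime) {ℓ : ℕ} (hℓ : ℓ.Prime) (h5 : 5 ≤ ℓ) (hℓN : ¬ ℓ ∣ N)
    (A : ValuationSubring Kbar) (hA : A.LiesOverPrime ℓ) :
    ∃ (Y : Type) (ρ : Divisor Kbar (FN N) →+ (Y →₀ ℤ)), Pack N ℓ A ρ := by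
  have : Fact ℓ.Prime := ⟨hℓ⟩
  obtain ⟨B, -, hB⟩ := exists_baseData_j N ℓ hℓ h5
  refine ⟨_, II.redDiv A (B.xK Kbar), II.redData_of_base hℓN B A hA,
    geo_base hℓN B hA (by rw [hB]; exact sepAt_j hN dvd_rfl A), fun _ f hf D hD h => ?_⟩
  exact II.isOne_of_redDiv_eq_zero B (II.goodAt hℓN B A hA) f hf D hD h

theorem exists_pack_two (hN : N.Prime) (h2 : ¬ 2 ∣ N) (h3 : ¬ 3 ∣ N)
    (A : ValuationSubring Kbar) (hA : A.LiesOverPrime 2) :
    ∃ (Y : Type) (ρ : Divisor Kbar (FN N) →+ (Y →₀ ℤ)), Pack N 2 A ρ := by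
  have : Fact (2 : ℕ).Prime := ⟨Nat.prime_two⟩
  have : NeZero (N * 3) := ⟨mul_ne_zero (NeZero.ne N) (by norm_num)⟩
  have h2' : ¬ 2 ∣ N * 3 := fun h => h2 ((Nat.Coprime.dvd_mul_right (by norm_num)).mp h)
  obtain ⟨B, -, hB⟩ := exists_baseData_h3 (N * 3) (dvd_mul_left 3 N)
  have hR := II.redData_pullback Nat.prime_three h3 ⟨2, by norm_num⟩ Nat.prime_two
    (II.redData_of_base h2' B A hA)
  refine ⟨_, _, hR, geo_pull _ hR.one
    (by rw [hB]; exact sepAt_h3 hN (dvd_mul_right N 3) _ A hA), fun h => ?_⟩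
  omega

theorem exists_pack_three (hN : N.Prime) (h2 : ¬ 2 ∣ N) (h3 : ¬ 3 ∣ N)
    (A : ValuationSubring Kbar) (hA : A.LiesOverPrime 3) :
    ∃ (Y : Type) (ρ : Divisor Kbar (FN N) →+ (Y →₀ ℤ)), Pack N 3 A ρ := by
  have : Fact (3 : ℕ).Prime := ⟨Nat.prime_three⟩
  have : NeZero (N * 2) := ⟨mul_ne_zero (NeZero.ne N) (by norm_num)⟩
  have h3' : ¬ 3 ∣ N * 2 := fun h => h3 ((Nat.Coprime.dvd_mul_right (by norm_num)).mp h)
  obtain ⟨B, -, hB⟩ := exists_baseData_h2 (N * 2) (dvd_mul_left 2 N)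
  have hR := II.redData_pullback Nat.prime_two h2 ⟨1, by norm_num⟩ Nat.prime_three
    (II.redData_of_base h3' B A hA)
  refine ⟨_, _, hR, geo_pull _ hR.one
    (by rw [hB]; exact sepAt_h2 hN (dvd_mul_right N 2) _ A hA), fun h => ?_⟩
  omega

/-- **the reduction package** -/
theorem exists_pack (hN : N.Prime) (h2 : ¬ 2 ∣ N) (h3 : ¬ 3 ∣ N) {ℓ : ℕ} (hℓ : ℓ.Prime)
    (hℓN : ¬ ℓ ∣ N) (A : ValuationSubring Kbar) (hA : A.LiesOverPrime ℓ) :
    ∃ (Y : Type) (ρ : Divisor Kbar (FN N) →+ (Y →₀ ℤ)), Pack N ℓ A ρ := by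
  by_cases h5 : 5 ≤ ℓ
  · exact exists_pack_five hN hℓ h5 hℓN A hA
  · have hℓ23 : ℓ = 2 ∨ ℓ = 3 := by
      have h2 := hℓ.two_le
      have h4 : ℓ ≠ 4 := by
        rintro rfl
        exact absurd hℓ (by norm_num)
      omega
    rcases hℓ23 with rfl | rfl
    · exact exists_pack_two hN h2 h3 A hA
    · exact exists_pack_three hN h2 h3 A hA

variable {z : Place Kbar (FN N)}

/-- **TORS**: the contract `TorsFree N`. -/
theorem torsFree (hN : N.Prime) (h2 : ¬ 2 ∣ N) (h3 : ¬ 3 ∣ N) (hz : IsCusp0 N z) :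
    TorsFree N := by
  intro ℓ hℓ hℓN A hA x hx m hm hmx
  obtain ⟨Y, ρ, hρ⟩ := exists_pack hN h2 h3 hℓ hℓN A hA
  obtain ⟨D, hD, rfl⟩ := exists_mem_ND x hx
  obtain ⟨h0, hdeg⟩ := rho_ND hN hz hρ.geo D hD
  refine II.rr_injective hρ.red m hm _ hmx ?_
  rw [cls_eq_mk hdeg, II.rr_mk]
  show QuotientAddGroup.mk (ρ D) = 0
  rw [h0]
  rfl

/-- **input of `RCase`** (`ℓ ≥ 5`): an element of `NN` is the class of a divisor `D` of degree `0`
such that every function whose divisor is a multiple of `D` is `IsOne`. -/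
theorem exists_isOne (hN : N.Prime) (hz : IsCusp0 N z) {ℓ : ℕ} (hℓ : ℓ.Prime) (h5 : 5 ≤ ℓ)
    (hℓN : ¬ ℓ ∣ N) {A : ValuationSubring Kbar} (hA : A.LiesOverPrime ℓ) (x : JZero N)
    (hx : x ∈ NN N A) :
    ∃ D : Divisor Kbar (FN N), Divisor.degree D = 0 ∧ x = cls D ∧
      ∀ (m : ℤ) (f : FN N), f ≠ 0 → (∀ v, m * D v = v.ord f) → II.IsOne A N f := by
  obtain ⟨Y, ρ, hρ⟩ := exists_pack_five hN hℓ h5 hℓN A hA
  obtain ⟨D, hD, rfl⟩ := exists_mem_ND x hx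
  obtain ⟨h0, hdeg⟩ := rho_ND hN hz hρ.geo D hD
  refine ⟨D, hdeg, rfl, fun m f hf hv => hρ.isOne h5 f hf (m • D) (fun v => ?_) ?_⟩
  · rw [← hv v]; simp
  · rw [map_zsmul, h0, smul_zero]

end Fermat.Agent.S15.A.Red

end
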