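/-
S15, block A, part A-RED (architect helper137; proof helper230), node UCRIT.

`h` with `A`-integral `q`-expansion and no pole outside `∞`; a place `x` at which neither `j` nor `h`
is `A`-integral is `NearInf`.

Proof.  If `x = ∞`: `nearInf_cInf`.  Otherwise `0 ≤ ord_x h`, `c := val x h ∉ A`, `e := ee h c` is
`IsOne` (`isOne_ee`), `e ≠ 0` (`II.isOne_ne_zero`), `D := div e`
(`HasPrincipalDivisors.exists_divisor`), `ρ D = 0` (`G.one`), `0 ≤ D v` for `v ≠ ∞` (`ord_ee_nonneg`),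
`0 < D x` (`ord_ee_pos_iff`).  `mass (ρ (pt x)) = d > 0` gives `y` with `ρ (pt x) y ≠ 0`
(`mass_eq_sum`, `exists_apply_ne_zero`); Lemma P (`ne_zero_of_map_eq_zero`, `G.pos`, `pt = single _ 1`)
gives `ρ (pt ∞) y ≠ 0`.  `nearInf_or_nearZero hN hx`: if `x` were `NearZero`, `G.sep ∞ x y` would give
`ρ (pt x) y = 0`.
-/
import Fermat.Agent.S15.A.Red.Core
import Fermat.Agent.S15.A.Red.IsOne
import Fermat.Agent.S15.A.Red.NearDich

set_option autoImplicit false

noncomputable section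

namespace Fermat.Agent.S15.A.Red

open ModularCurve AlgebraicCurve Fermat.Agent.S24 Fermat.Agent.S27 Fermat.Agent.S37

variable {N : ℕ} [NeZero N] {A : ValuationSubring Kbar} {Y : Type*}
  {ρ : Divisor Kbar (FN N) →+ (Y →₀ ℤ)}

/-- **UCRIT**. -/
theorem ucrit_of_geo (hN : N.Prime) (G : Geo N A ρ) (h : FN N) (H : LaurentSeries A)
    (hH : coeffMap A.subtype H = (h : LaurentSeries Kbar))
    (hpole : ∀ v : Place Kbar (FN N), v ≠ cInf N → 0 ≤ v.ord h) {x : Place Kbar (FN N)}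
    (hx : jF N ∉ compRing A x) (hxh : h ∉ compRing A x) : NearInf N A x := by
  by_cases hxc : x = cInf N
  · rw [hxc]
    exact nearInf_cInf hN.two_le A
  have hord : 0 ≤ x.ord h := hpole x hxc
  have hcA : val x h ∉ A := fun hc => hxh (mem_compRing.2 ⟨hord, hc⟩)
  have hc0 : val x h ≠ 0 := fun h0 => hcA (h0 ▸ A.zero_mem)
  have hone : II.IsOne A N (ee h (val x h)) := isOne_ee h H hH hcA
  have he0 : ee h (val x h) ≠ 0 := II.isOne_ne_zero hone
  have hFF : FF.IsFF1 Kbar (FN N) := Export.isFF1 N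
  obtain ⟨D, hD⟩ : ∃ D : Divisor Kbar (FN N), ∀ v, D v = v.ord (ee h (val x h)) :=
    ⟨Finsupp.onFinset (FF.finite_ord_ne_zero (K := Kbar) (ee h (val x h))).toFinset
      (fun v => v.ord (ee h (val x h))) (fun v hv => by simpa using hv), fun v => rfl⟩
  have hρD : ρ D = 0 := G.one _ D hone hD
  have hDpos : ∀ v, v ≠ cInf N → 0 ≤ D v := fun v hv => by
    rw [hD]
    exact ord_ee_nonneg (hpole v hv)
  have hDx : 0 < D x := by
    rw [hD, ord_ee_pos_iff hc0 he0 hord]
  obtain ⟨d, hd, hmass⟩ := G.mass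
  obtain ⟨y, hy⟩ := exists_apply_ne_zero (ρ (pt x)) (by
    rw [← mass_eq_sum, hmass x]
    exact hd.ne')
  have hy' : ρ (pt (cInf N)) y ≠ 0 :=
    ne_zero_of_map_eq_zero ρ G.pos D hρD (cInf N) x hDpos hxc hDx y hy
  rcases nearInf_or_nearZero hN hx with h1 | h1
  · exact h1
  · exact absurd (G.sep (cInf N) x y (nearInf_cInf hN.two_le A) h1 hy') hy

end Fermat.Agent.S15.A.Red

end
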