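/-
S15, block A, part A-RED (architect helper137): FIX and UCRIT (NOT used by `S15.lean`: the contract
`Dict` was proved without them).
-/
import Fermat.Agent.S15.A.Red.Main
import Fermat.Agent.S15.A.Red.Ucrit

set_option autoImplicit false

noncomputable section

namespace Fermat.Agent.S15.A.Red

open ModularCurve AlgebraicCurve Fermat.Agent.S24 Fermat.Agent.S27 Fermat.Agent.S37

variable {N : ℕ} [NeZero N] {z : Place Kbar (FN N)}

/-- **FIX**, `NearInf` version. -/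
theorem fix_inf (hN : N.Prime) (h2 : ¬ 2 ∣ N) (h3 : ¬ 3 ∣ N) (hz : IsCusp0 N z) {ℓ : ℕ}
    (hℓ : ℓ.Prime) (hℓN : ¬ ℓ ∣ N) {A : ValuationSubring Kbar} (hA : A.LiesOverPrime ℓ)
    {P P' : Place Kbar (FN N)} (hP : NearInf N A P) (hP' : NearInf N A P')
    (h0 : 0 ≤ P.ord (jF N)) (h0' : 0 ≤ P'.ord (jF N)) (h : val P' (jF N) = val P (jF N)) :
    P' = P := by
  obtain ⟨Y, ρ, hρ⟩ := exists_pack hN h2 h3 hℓ hℓN A hA
  exact fix_inf_of_geo hN hz hρ.geo hP hP' h0 h0' h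

/-- **FIX**, `NearZero` version. -/
theorem fix_zero (hN : N.Prime) (h2 : ¬ 2 ∣ N) (h3 : ¬ 3 ∣ N) (hz : IsCusp0 N z) {ℓ : ℕ}
    (hℓ : ℓ.Prime) (hℓN : ¬ ℓ ∣ N) {A : ValuationSubring Kbar} (hA : A.LiesOverPrime ℓ)
    {P P' : Place Kbar (FN N)} (hP : NearZero N A P) (hP' : NearZero N A P')
    (h0 : 0 ≤ P.ord (jN N)) (h0' : 0 ≤ P'.ord (jN N)) (h : val P' (jN N) = val P (jN N)) :
    P' = P := by
  obtain ⟨Y, ρ, hρ⟩ := exists_pack hN h2 h3 hℓ hℓN A hA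
  exact fix_zero_of_geo hN hz hρ.geo hP hP' h0 h0' h

/-- **UCRIT**. -/
theorem ucrit (hN : N.Prime) (h2 : ¬ 2 ∣ N) (h3 : ¬ 3 ∣ N) {ℓ : ℕ}
    (hℓ : ℓ.Prime) (hℓN : ¬ ℓ ∣ N) {A : ValuationSubring Kbar} (hA : A.LiesOverPrime ℓ)
    (h : FN N) (H : LaurentSeries A) (hH : coeffMap A.subtype H = (h : LaurentSeries Kbar))
    (hpole : ∀ v : Place Kbar (FN N), v ≠ cInf N → 0 ≤ v.ord h) {x : Place Kbar (FN N)}
    (hx : jF N ∉ compRing A x) (hxh : h ∉ compRing A x) : NearInf N A x := by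
  obtain ⟨Y, ρ, hρ⟩ := exists_pack hN h2 h3 hℓ hℓN A hA
  exact ucrit_of_geo hN hρ.geo h H hH hpole hx hxh

end Fermat.Agent.S15.A.Red

end
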