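/-
S15, block A, part A-RED (architect helper137): `Geo` for `ρ = redDiv A x ∘ α^*`,
`α : FN N → FN (N r)` (used for `ℓ = 2`, `r = 3`, `x = h₃` and `ℓ = 3`, `r = 2`, `x = h₂`).
-/
import Fermat.Agent.S15.A.Red.Defs
import Fermat.Agent.S15.A.Hecke.Restrict
import Fermat.Agent.S37.II.Level
import Fermat.Agent.GAL.E.Embed

set_option autoImplicit false

noncomputable section

namespace Fermat.Agent.S15.A.Red

open ModularCurve AlgebraicCurve Fermat.Agent.S24 Fermat.Agent.S27 Fermat.Agent.S37
open Fermat.Agent.S18 Fermat.Agent.S37.HeckeInputs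

variable {N r : ℕ} [NeZero N] [NeZero r] {A : ValuationSubring Kbar}

local notation "al" => heckeAlphaBar Kbar N r
local notation "hal" => alpha_integral N r

theorem nearInf_restrictAlong (W : Place Kbar (FN (N * r))) :
    NearInf N A (W.restrictAlong al hal) ↔
      VInf (compRing A W) (jF (N * r)) (JF (N * r) N (dvd_mul_right N r)) := by
  have h := vInf_restrictAlong A al hal W (jF N) (jN N)
  rw [jF, jN, GAL.E.heckeAlphaBar_JF, GAL.E.heckeAlphaBar_JF] at h
  exact h

theorem nearZero_restrictAlong (W : Place Kbar (FN (N * r))) :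
    NearZero N A (W.restrictAlong al hal) ↔
      VZero (compRing A W) (jF (N * r)) (JF (N * r) N (dvd_mul_right N r)) := by
  have h := vZero_restrictAlong A al hal W (jF N) (jN N)
  rw [jF, jN, GAL.E.heckeAlphaBar_JF, GAL.E.heckeAlphaBar_JF] at h
  exact h

/-- `ρ (pt P) = ∑_{W | P} e_W (red W)`
(`Divisor.pullbackAlong_single`, `map_sum`, `II.redDiv_single`). -/
theorem pull_pt (x : FN (N * r)) (P : Place Kbar (FN N)) :
    (II.redDiv A x).comp (Divisor.pullbackAlong al hal) (pt P) =
      ∑ W ∈ Place.fiberAlong al hal P,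
        Finsupp.single (II.red A x W) (W.ramificationIndexAlong al : ℤ) := by
  rw [AddMonoidHom.comp_apply, pt, Divisor.pullbackAlong_single, map_sum]
  refine Finset.sum_congr rfl fun W _ => ?_
  rw [II.redDiv_single, one_mul]

/-- if `ρ (pt P) y ≠ 0` then `y = red W` for some `W` over `P`. -/
theorem exists_of_pull_ne_zero (x : FN (N * r)) (P : Place Kbar (FN N)) (y : II.Pt A x)
    (h : (II.redDiv A x).comp (Divisor.pullbackAlong al hal) (pt P) y ≠ 0) :
    ∃ W : Place Kbar (FN (N * r)), W.restrictAlong al hal = P ∧ II.red A x W = y := by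
  classical
  rw [pull_pt, Finsupp.finsetSum_apply] at h
  obtain ⟨W, hW, hWy⟩ := Finset.exists_ne_zero_of_sum_ne_zero h
  refine ⟨W, Place.mem_fiberAlong.mp hW, ?_⟩
  by_contra hne
  exact hWy (Finsupp.single_eq_of_ne' hne)

/-- `mass (ρ (pt P)) = [FN (N r) : FN N]` (`descent_sum_ramificationIndexAlong`, as in
`S37/II/LevelCore.lean`). -/
theorem mass_pull_pt (x : FN (N * r)) (P : Place Kbar (FN N)) :
    mass ((II.redDiv A x).comp (Divisor.pullbackAlong al hal) (pt P)) =
      (finrankAlong Kbar al : ℤ) := by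
  rw [pull_pt, map_sum,
    ← descent_sum_ramificationIndexAlong (heckeAlphaBar Kbar N r) (alpha_finite N r)
      (alpha_integral N r) P]
  refine Finset.sum_congr rfl fun W _ => ?_
  rw [mass, Finsupp.liftAddHom_apply_single, AddMonoidHom.id_apply]

theorem finrankAlong_alpha_pos : 0 < finrankAlong Kbar al := by
  letI := algebraAlong al
  haveI : Module.Finite (FN N) (FN (N * r)) := alpha_finite N r
  exact Module.finrank_pos

theorem geo_pull (x : FN (N * r))
    (hone : ∀ (e : FN N) (D : Divisor Kbar (FN N)), II.IsOne A N e → (∀ v, D v = v.ord e) →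
      (II.redDiv A x).comp (Divisor.pullbackAlong al hal) D = 0)
    (hsep : SepAt (N * r) N (dvd_mul_right N r) A x) :
    Geo N A ((II.redDiv A x).comp (Divisor.pullbackAlong al hal)) where
  pos := by
    intro P y
    rw [pull_pt, Finsupp.finsetSum_apply]
    refine Finset.sum_nonneg fun W _ => ?_
    classical
    rw [Finsupp.single_apply]
    split_ifs
    · exact Nat.cast_nonneg _
    · exact le_rfl
  mass := ⟨finrankAlong Kbar al, by exact_mod_cast finrankAlong_alpha_pos (N := N) (r := r), mass_pull_pt x⟩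
  one := hone
  sep := by
    intro P P' y hP hP' hy
    by_contra hy'
    obtain ⟨W, rfl, hW⟩ := exists_of_pull_ne_zero x P y hy
    obtain ⟨W', rfl, hW'⟩ := exists_of_pull_ne_zero x P' y hy'
    exact hsep W W' ((nearInf_restrictAlong W).1 hP) ((nearZero_restrictAlong W').1 hP')
      (hW.trans hW'.symm)

end Fermat.Agent.S15.A.Red

end
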