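/-
S15, block A, part A-RED (helper137): the RED-side input `NNIsOne` of `RCase` (K6, helper135).
-/
import Fermat.Agent.S15.A.Red.Main
import Fermat.Agent.S15.A.Lam.RCase

set_option autoImplicit false

noncomputable section

namespace Fermat.Agent.S15.A.Red

open ModularCurve AlgebraicCurve Fermat.Agent.S24 Fermat.Agent.S27 Fermat.Agent.S37

variable {N : ℕ} [NeZero N] {z : Place Kbar (FN N)}

theorem nnIsOne (hN : N.Prime) (hz : IsCusp0 N z) {ℓ : ℕ} (hℓ : ℓ.Prime) (h5 : 5 ≤ ℓ)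
    (hℓN : ¬ ℓ ∣ N) (A : ValuationSubring Kbar) (hA : A.LiesOverPrime ℓ) : NNIsOne N A := by
  intro D hD f hf
  obtain ⟨Y, ρ, hρ⟩ := exists_pack_five hN hℓ h5 hℓN A hA
  exact hρ.isOne h5 f hf.1 D hf.2 (rho_ND hN hz hρ.geo D hD).1

end Fermat.Agent.S15.A.Red

end
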