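/-
S15, block A, part A-RED (architect helper137), node RHO: combinatorial lemmas on additive maps
`ρ : (X →₀ ℤ) →+ (Y →₀ ℤ)`, part 1.  Mathlib only.
-/
import Mathlib

set_option autoImplicit false

namespace Fermat.Agent.S15.A.Red

open Finsupp

variable {X Y : Type*} (ρ : (X →₀ ℤ) →+ (Y →₀ ℤ))

/-- the total mass as an additive map -/
private noncomputable def massHom (Z : Type*) : (Z →₀ ℤ) →+ ℤ :=
  Finsupp.liftAddHom (fun _ => AddMonoidHom.id ℤ)

private theorem massHom_apply {Z : Type*} (f : Z →₀ ℤ) : massHom Z f = f.sum fun _ n => n := rfl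

private theorem massHom_single {Z : Type*} (v : Z) (n : ℤ) : massHom Z (single v n) = n := by
  rw [massHom_apply, Finsupp.sum_single_index rfl]

private theorem single_eq_zsmul {Z : Type*} (v : Z) (n : ℤ) :
    single v n = n • single v (1 : ℤ) := by
  rw [Finsupp.smul_single, smul_eq_mul, mul_one]

/-- `ρ D = ∑_v D v • ρ (v)`, evaluated at `y`. -/
theorem map_apply_eq_sum (D : X →₀ ℤ) (y : Y) :
    ρ D y = D.sum fun v n => n * ρ (single v 1) y := by
  induction D using Finsupp.induction_linear with
  | zero => simp
  | add f g hf hg =>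
    rw [map_add, Finsupp.add_apply, hf, hg,
      Finsupp.sum_add_index' (fun _ => zero_mul _) (fun _ _ _ => add_mul _ _ _)]
  | single v n =>
    rw [Finsupp.sum_single_index (zero_mul _), single_eq_zsmul, map_zsmul, Finsupp.smul_apply,
      smul_eq_mul]

/-- the total mass of `ρ D` if all `ρ (v)` have total mass `d`. -/
theorem sum_map_eq (d : ℤ) (h : ∀ v, (ρ (single v 1)).sum (fun _ n => n) = d) (D : X →₀ ℤ) :
    (ρ D).sum (fun _ n => n) = d * D.sum fun _ n => n := by
  rw [← massHom_apply, ← massHom_apply]
  induction D using Finsupp.induction_linear with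
  | zero => simp
  | add f g hf hg => rw [map_add, map_add, map_add, hf, hg, mul_add]
  | single v n =>
    rw [massHom_single, single_eq_zsmul, map_zsmul, map_zsmul, massHom_apply, h, smul_eq_mul,
      mul_comm]

/-- a nonzero total mass gives a point of the support -/
theorem exists_apply_ne_zero (f : Y →₀ ℤ) (h : (f.sum fun _ n => n) ≠ 0) : ∃ y, f y ≠ 0 := by
  by_contra hne
  push Not at hne
  have h0 : f = 0 := Finsupp.ext hne
  rw [h0, Finsupp.sum_zero_index] at h
  exact h rfl

/-- **Lemma B**: a divisor of degree `0` with a single pole `κ`, of order one, and a zero `P`. -/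
theorem eq_single_sub_single (E : X →₀ ℤ) (κ P : X) (hκ : E κ = -1)
    (hpos : ∀ v, v ≠ κ → 0 ≤ E v) (hP : 0 < E P) (hdeg : (E.sum fun _ n => n) = 0) :
    E = single P 1 - single κ 1 := by
  classical
  have hPκ : P ≠ κ := by
    rintro rfl
    omega
  have hF0 : ∀ v, 0 ≤ (E + single κ 1 - single P 1 : X →₀ ℤ) v := by
    intro v
    rw [Finsupp.sub_apply, Finsupp.add_apply, Finsupp.single_apply, Finsupp.single_apply]
    by_cases h1 : v = κ
    · subst h1
      rw [if_pos rfl, if_neg hPκ, hκ]
      norm_num
    · rw [if_neg (Ne.symm h1)]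
      by_cases h2 : v = P
      · subst h2
        rw [if_pos rfl]
        omega
      · rw [if_neg (Ne.symm h2)]
        have := hpos v h1
        omega
  have hsum : massHom X (E + single κ 1 - single P 1) = 0 := by
    rw [map_sub, map_add, massHom_single, massHom_single, massHom_apply, hdeg]
    norm_num
  have hzero : E + single κ 1 - single P 1 = 0 := by
    rw [massHom_apply, Finsupp.sum] at hsum
    have h3 := (Finset.sum_eq_zero_iff_of_nonneg (fun v _ => hF0 v)).1 hsum
    ext v
    by_cases hv : v ∈ (E + single κ 1 - single P 1 : X →₀ ℤ).support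
    · exact h3 v hv
    · exact Finsupp.notMem_support_iff.1 hv
  have h4 : E = (E + single κ 1 - single P 1) + single P 1 - single κ 1 := by abel
  rw [h4, hzero, zero_add]

end Fermat.Agent.S15.A.Red
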