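/-
S15, block A, part A-RED (architect helper137), node RHO: combinatorial lemmas on additive maps
`ρ : (X →₀ ℤ) →+ (Y →₀ ℤ)`, part 2 (Lemma A, Lemma P).  Mathlib only.
-/
import Fermat.Agent.S15.A.Red.Split

set_option autoImplicit false

namespace Fermat.Agent.S15.A.Red

open Finsupp

variable {X Y : Type*} (ρ : (X →₀ ℤ) →+ (Y →₀ ℤ))

open Classical in
/-- **Lemma A**: if the points of type `p` and the points of type `p'` have disjoint `ρ`-supports and
`ρ D = 0` for a `D` supported on points of type `p` or `p'`, then `ρ` kills the `p`-part of `D`. -/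
theorem map_filter_eq_zero (p p' : X → Prop)
    (hsep : ∀ v v' y, p v → p' v' → ρ (single v 1) y ≠ 0 → ρ (single v' 1) y = 0)
    (D : X →₀ ℤ) (hD : ρ D = 0) (hsupp : ∀ v, D v ≠ 0 → p v ∨ p' v) :
    ρ (D.filter p) = 0 := by
  ext y
  rw [Finsupp.coe_zero, Pi.zero_apply]
  have hsplit : ρ (D.filter p) y + ρ (D.filter fun v => ¬ p v) y = 0 := by
    rw [← Finsupp.add_apply, ← map_add, Finsupp.filter_add_filter_not, hD]
    rfl
  by_cases hc : ∃ v, D v ≠ 0 ∧ p v ∧ ρ (single v 1) y ≠ 0
  · obtain ⟨v, -, hpv, hv⟩ := hc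
    have h2 : ρ (D.filter fun v => ¬ p v) y = 0 := by
      rw [map_apply_eq_sum, Finsupp.sum]
      refine Finset.sum_eq_zero fun v' hv' => ?_
      rw [Finsupp.mem_support_iff, Finsupp.filter_apply] at hv'
      have hnp : ¬ p v' := by
        by_contra hh
        rw [if_neg (not_not.2 hh)] at hv'
        exact hv' rfl
      rw [if_pos hnp] at hv'
      have hp' : p' v' := (hsupp v' hv').resolve_left hnp
      rw [hsep v v' y hpv hp' hv, mul_zero]
    rw [h2, add_zero] at hsplit
    exact hsplit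
  · push Not at hc
    rw [map_apply_eq_sum, Finsupp.sum]
    refine Finset.sum_eq_zero fun v hv => ?_
    rw [Finsupp.mem_support_iff, Finsupp.filter_apply] at hv
    have hpv : p v := by
      by_contra hh
      rw [if_neg hh] at hv
      exact hv rfl
    rw [if_pos hpv] at hv
    rw [hc v hv hpv, mul_zero]

/-- **Lemma P** (positivity): if `ρ D = 0`, `κ` is the only pole of `D` and `x` is a zero of `D`, then
the support of `ρ (x)` is contained in the support of `ρ (κ)`. -/
theorem ne_zero_of_map_eq_zero (hpos : ∀ v y, 0 ≤ ρ (single v 1) y) (D : X →₀ ℤ) (hD : ρ D = 0)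
    (κ x : X) (hD' : ∀ v, v ≠ κ → 0 ≤ D v) (hx : x ≠ κ) (hDx : 0 < D x) (y : Y)
    (hy : ρ (single x 1) y ≠ 0) : ρ (single κ 1) y ≠ 0 := by
  intro hκ
  have h0 : ρ D y = 0 := by
    rw [hD]
    rfl
  rw [map_apply_eq_sum, Finsupp.sum] at h0
  have hnn : ∀ v ∈ D.support, 0 ≤ D v * ρ (single v 1) y := by
    intro v _
    by_cases hv : v = κ
    · rw [hv, hκ, mul_zero]
    · exact mul_nonneg (hD' v hv) (hpos v y)
  have hxs : x ∈ D.support := Finsupp.mem_support_iff.2 hDx.ne'
  have hle := Finset.single_le_sum hnn hxs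
  rw [h0] at hle
  have hpx : 0 < ρ (single x 1) y := lt_of_le_of_ne (hpos x y) (Ne.symm hy)
  exact absurd hle (not_le.2 (mul_pos hDx hpx))

end Fermat.Agent.S15.A.Red
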