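/-
S15, block A, part A-RED, node TORS (helper35): from a reduction datum `ρ` which is constant on the
places near the same cusp (node RHO) to `TorsFree`.

* `rho_eq_zero_of_mem_ND`   : `ρ` kills `ND N A`
* `exists_mem_ND_of_mem_NN` : every element of `NN N A` is the class of a divisor in `ND N A`
* `eq_zero_of_redData`      : no prime-to-`ℓ` torsion in `NN N A`
* `torsFree_of`             : the contract `TorsFree N`
-/
import Fermat.Agent.S15.A.Red.Defs
import Fermat.Agent.S15.A.Basic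

set_option autoImplicit false

noncomputable section

namespace Fermat.Agent.S15.A.Red

open ModularCurve AlgebraicCurve Fermat.Agent.S24 Fermat.Agent.S27 Fermat.Agent.S37

variable {N : ℕ} [NeZero N] {A : ValuationSubring Kbar}

/-- `ρ` is constant on the places near the same cusp (the conclusion of the node RHO). -/
def RhoConst (N : ℕ) [NeZero N] (A : ValuationSubring Kbar) {Y : Type*}
    (ρ : Divisor Kbar (FN N) →+ (Y →₀ ℤ)) : Prop :=
  ∀ P P' : Place Kbar (FN N), Same N A P P' → ρ (pt P) = ρ (pt P')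

theorem rho_eq_zero_of_mem_ND {Y : Type*} {ρ : Divisor Kbar (FN N) →+ (Y →₀ ℤ)}
    (hρ : RhoConst N A ρ) {D : Divisor Kbar (FN N)} (hD : D ∈ ND N A) : ρ D = 0 := by
  induction hD using AddSubgroup.closure_induction with
  | mem D hD =>
    obtain ⟨P, P', h, rfl⟩ := hD
    rw [map_sub, hρ P P' h, sub_self]
  | zero => exact map_zero ρ
  | add D E _ _ hD hE => rw [map_add, hD, hE, add_zero]
  | neg D _ hD => rw [map_neg, hD, neg_zero]

theorem degree_eq_zero_of_mem_ND {D : Divisor Kbar (FN N)} (hD : D ∈ ND N A) :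
    Divisor.degree D = 0 := by
  induction hD using AddSubgroup.closure_induction with
  | mem D hD =>
    obtain ⟨P, P', -, rfl⟩ := hD
    exact degree_pt_sub_pt P P'
  | zero => exact map_zero _
  | add D E _ _ hD hE => rw [map_add, hD, hE, add_zero]
  | neg D _ hD => rw [map_neg, hD, neg_zero]

theorem exists_mem_ND_of_mem_NN {x : JZero N} (hx : x ∈ NN N A) :
    ∃ D ∈ ND N A, x = cls D := by
  induction hx using AddSubgroup.closure_induction with
  | mem x hx =>
    obtain ⟨P, P', h, rfl⟩ := hx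
    exact ⟨_, AddSubgroup.subset_closure ⟨P, P', h, rfl⟩, rfl⟩
  | zero => exact ⟨0, (ND N A).zero_mem, cls_zero.symm⟩
  | add x y _ _ hx hy =>
    obtain ⟨D, hD, rfl⟩ := hx
    obtain ⟨E, hE, rfl⟩ := hy
    exact ⟨D + E, (ND N A).add_mem hD hE,
      (cls_add (degree_eq_zero_of_mem_ND hD) (degree_eq_zero_of_mem_ND hE)).symm⟩
  | neg x _ hx =>
    obtain ⟨D, hD, rfl⟩ := hx
    exact ⟨-D, (ND N A).neg_mem hD, (cls_neg (degree_eq_zero_of_mem_ND hD)).symm⟩

theorem Tors.cls_nsmul {D : Divisor Kbar (FN N)} (hD : Divisor.degree D = 0) (m : ℕ) :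
    cls (m • D) = m • cls D := by
  induction m with
  | zero => rw [zero_nsmul, zero_nsmul, cls_zero]
  | succ m ih =>
    rw [succ_nsmul, succ_nsmul, cls_add (by rw [map_nsmul, hD, smul_zero]) hD, ih]

/-- every element of `NN N A` is the class of a divisor of degree zero killed by `ρ`
(export for `RCase`). -/
theorem exists_rho_eq_zero_of_mem_NN {Y : Type*} {ρ : Divisor Kbar (FN N) →+ (Y →₀ ℤ)}
    (hρ : RhoConst N A ρ) {x : JZero N} (hx : x ∈ NN N A) :
    ∃ D : Divisor Kbar (FN N), Divisor.degree D = 0 ∧ ρ D = 0 ∧ x = cls D := by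
  obtain ⟨D, hD, rfl⟩ := exists_mem_ND_of_mem_NN hx
  exact ⟨D, degree_eq_zero_of_mem_ND hD, rho_eq_zero_of_mem_ND hρ hD, rfl⟩

/-- no prime-to-`ℓ` torsion in `NN N A`. -/
theorem eq_zero_of_redData {ℓ : ℕ} {Y : Type*} {ρ : Divisor Kbar (FN N) →+ (Y →₀ ℤ)}
    (h : II.RedData A N ℓ ρ) (hρ : RhoConst N A ρ) {x : JZero N} (hx : x ∈ NN N A) {m : ℕ}
    (hm : ¬ ℓ ∣ m) (hmx : m • x = 0) : x = 0 := by
  obtain ⟨D, hD0, hD, rfl⟩ := exists_rho_eq_zero_of_mem_NN hρ hx
  rw [← Tors.cls_nsmul hD0, cls_eq_zero_iff (by rw [map_nsmul, hD0, smul_zero])] at hmx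
  rw [cls_eq_zero_iff hD0]
  exact h.inj m hm D hD hmx

/-- **TORS.** -/
theorem torsFree_of
    (H : ∀ ℓ : ℕ, ℓ.Prime → ¬ ℓ ∣ N → ∀ A : ValuationSubring Kbar, A.LiesOverPrime ℓ →
      ∃ (Y : Type) (ρ : Divisor Kbar (FN N) →+ (Y →₀ ℤ)), II.RedData A N ℓ ρ ∧ RhoConst N A ρ) :
    TorsFree N := by
  intro ℓ hℓ hℓN A hA x hx m hm hmx
  obtain ⟨Y, ρ, h, hρ⟩ := H ℓ hℓ hℓN A hA
  exact eq_zero_of_redData h hρ hx hm hmx

end Fermat.Agent.S15.A.Red

end
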